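/-
P-CFT / LOCAL row 829 (INV-EX, sub-lead helper78): existence of the canonical local invariant
for `p ^ n`-torsion classes,

`invExists_of : PPowTorsionCyclicAbsStatement → InvExistsStatement`.

Route (extension of helper24's `brauerP_of` from `p` to `p ^ n`, with the generator made
explicit): the level cocycle `c` is inflated from a finite Galois `F / E` (helper75's
`lvl2Finite`), its `p ^ n`-th power is a finite level coboundary (helper75's `inf2Lvl` +
helper57's `h90Lvl`); on the compositum `L = F ⊔ unramExt q E (p ^ n)` the inflated unramified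
class of a uniformizer has order divisible by `p ^ n` (helper98's `inflFinInj` + helper61's
`isMulCoboundary₂_unif_zpow_iff` + the norm index theorem), hence the class of `c` is a
multiple of it (`PPowTorsionCyclicAbsStatement`); back to level cochains by helper98's
`finToLvl`, `inflComp`.
-/
import Fermat.Agent.H78.CFT.LocalInvRows
import Fermat.Agent.H24.Brauer.Assembly
import Fermat.Agent.H24.Brauer.Interfaces2
import Fermat.Agent.H98.Brauer.FinLvl
import Fermat.Agent.H75.Inf2Finite
import Fermat.Agent.H75.Inf2Lvl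
import Fermat.Agent.H57.CFT.H90Lvl
import Fermat.Agent.H61.CFT.UnramH78
import Fermat.Agent.H78.CFT.LocalNormIndex

set_option autoImplicit false
set_option linter.style.haveILetI false
set_option synthInstance.maxHeartbeats 400000

noncomputable section

open CategoryTheory groupCohomology

namespace Fermat.Agent.H96.CFT

open Fermat.Agent.H13.Cft Fermat.Agent.H78.CFT Fermat.Agent.H81.Local Fermat.Agent.H61.CFT
  Fermat.Agent.H49.Unram Fermat.Agent.H24.Brauer

/-- Powers of multiplicative 2-cocycles are 2-cocycles. -/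
theorem isMulCocycle₂_npow {G M : Type} [Group G] [CommGroup M] [MulDistribMulAction G M]
    {f : G × G → M} (hf : IsMulCocycle₂ f) (k : ℕ) : IsMulCocycle₂ (fun x => f x ^ k) := by
  intro g h j
  show f (g * h, j) ^ k * f (g, h) ^ k = g • (f (h, j) ^ k) * f (g, h * j) ^ k
  rw [← mul_pow, hf g h j, mul_pow, smul_pow']

set_option maxHeartbeats 2000000 in
/-- **INV-EX** from the cyclicity of the `p ^ n`-torsion at finite level. -/
theorem invExists_of (h1 : PPowTorsionCyclicAbsStatement) : InvExistsStatement := by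
  intro p _ q _ E hE n c hclvl hccoc hcpow
  have hp : p.Prime := Fact.out
  have hm : 0 < p ^ n := pow_pos hp.pos n
  -- `c` comes from a finite level
  obtain ⟨F, hFfd, hFgal, c', hc', hcc'⟩ := Fermat.Agent.H75.Inf2.lvl2Finite E c hclvl hccoc
  haveI := hFfd
  haveI := hFgal
  -- the unramified extension of degree `p ^ n`
  obtain ⟨φ, hφ⟩ := exists_isFrobE hE hm
  obtain ⟨π, hπ⟩ := exists_unif_unit hE
  have hφ' : IsUnramCyclic (qVal q) (resCard q E) (unramExt q E (p ^ n)) (p ^ n) φ := hφ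
  haveI : FiniteDimensional E (unramExt q E (p ^ n)) := hφ'.finiteDimensional
  haveI : IsGalois E (unramExt q E (p ^ n)) := hφ'.isGalois
  have hd := localNormDatum_unramExt hE hm
  have hur : IsUnramVal E (qValOn q (unramExt q E (p ^ n))) := by
    intro x hx
    obtain ⟨y, hy⟩ := hφ'.unram x hx
    refine ⟨y, ?_, hy⟩
    rintro rfl
    have h0 : qValOn q (unramExt q E (p ^ n)) x = 0 := by
      rw [qValOn_apply, hy, map_zero, map_zero]
    exact hx ((map_eq_zero _).1 h0)
  have hπ' : IsUnifVal (qValOn q (unramExt q E (p ^ n))) (π : E) :=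
    ⟨π.ne_zero, hπ.2.2.1, fun x hx => hπ.2.2.2 (x : Qb) x.2 (fun h => hx (Subtype.ext h))⟩
  have hg : IsGen φ := isGen_of_forall_mem_zpowers hφ'.gen
  haveI : IsCyclic (unramExt q E (p ^ n) ≃ₐ[E] unramExt q E (p ^ n)) := ⟨⟨φ, hφ'.gen⟩⟩
  have hidx := index_normSubgp_of_normIndex normIndex hd
  have hfr : Module.finrank E (unramExt q E (p ^ n)) = p ^ n := hφ'.finrank_eq
  have hunit : unitOfE q E (p ^ n) π = unifUnit hπ' := Units.ext rfl
  have hu : IsMulCocycle₂ (stdCocycle φ (unitOfE q E (p ^ n) π)) := by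
    rw [hunit]
    exact isMulCocycle₂_stdCocycle_unitsIncl hg _
  -- the `p ^ n`-th power of `c'` is a finite level coboundary
  have hc'p : IsMulCoboundary₂ (fun y => c' y ^ (p ^ n)) := by
    refine Fermat.Agent.H75.Inf2.inf2Lvl Fermat.Agent.H57.CFT.h90Lvl E F _
      (isMulCocycle₂_npow hc' _) ?_
    obtain ⟨x, hx, hxe⟩ := hcpow
    refine ⟨x, hx, fun gh => ?_⟩
    rw [hxe gh, ← hcc']
    simp only [inflE, map_pow]
  -- the compositum
  have hFL : F ≤ F ⊔ unramExt q E (p ^ n) := le_sup_left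
  have hF₀L : unramExt q E (p ^ n) ≤ F ⊔ unramExt q E (p ^ n) := le_sup_right
  haveI : FiniteDimensional E (F ⊔ unramExt q E (p ^ n) : IntermediateField E Qb) :=
    IntermediateField.finiteDimensional_sup F (unramExt q E (p ^ n))
  haveI : IsGalois E (F ⊔ unramExt q E (p ^ n) : IntermediateField E Qb) := inferInstance
  have hcL := isMulCocycle₂_inflFL E F (F ⊔ unramExt q E (p ^ n)) hFL hc'
  have huL := isMulCocycle₂_inflFL E (unramExt q E (p ^ n)) (F ⊔ unramExt q E (p ^ n)) hF₀L hu
  have hcpL : IsMulCoboundary₂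
      (fun x => inflFL E F (F ⊔ unramExt q E (p ^ n)) hFL c' x ^ (p ^ n)) :=
    isMulCoboundary₂_congr (fun x => inflFL_pow E F (F ⊔ unramExt q E (p ^ n)) hFL c' (p ^ n) x)
      (isMulCoboundary₂_inflFL E F (F ⊔ unramExt q E (p ^ n)) hFL hc'p)
  -- the classes
  have hx₂ : p ^ n • h2Class hcL = 0 := by
    rw [← natCast_zsmul, zsmul_h2Class_eq_zero_iff]
    refine isMulCoboundary₂_congr (fun x => ?_) hcpL
    rw [zpow_natCast]
  have hx₁ : ∀ k : ℤ, k • h2Class huL = 0 → ((p ^ n : ℕ) : ℤ) ∣ k := by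
    intro k hk
    rw [zsmul_h2Class_eq_zero_iff] at hk
    have hkc : IsMulCocycle₂ (stdCocycle φ (unifUnit hπ' ^ k)) := by
      have : unifUnit hπ' ^ k = unitsIncl E (unramExt q E (p ^ n)) ((Units.mk0 (π : E) hπ'.1) ^ k) := by
        rw [unifUnit, map_zpow]
      rw [this]
      exact isMulCocycle₂_stdCocycle_unitsIncl hg _
    have hk' : IsMulCoboundary₂ (inflFL E (unramExt q E (p ^ n)) (F ⊔ unramExt q E (p ^ n)) hF₀L
        (stdCocycle φ (unifUnit hπ' ^ k))) := by
      refine isMulCoboundary₂_congr (fun x => ?_) hk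
      simp only [inflFL, pullCochain, stdCocycle_zpow, map_zpow, hunit]
    have hk'' := Fermat.Agent.H98.Brauer.inflFinInj E (unramExt q E (p ^ n))
      (F ⊔ unramExt q E (p ^ n)) hF₀L _ hkc hk'
    have := (isMulCoboundary₂_unif_zpow_iff hg hd.galois_inv hur hπ' hidx k).1 hk''
    rwa [hfr] at this
  obtain ⟨j, hj⟩ := h1 p q E (F ⊔ unramExt q E (p ^ n) : IntermediateField E Qb)
    (algebraMap (F ⊔ unramExt q E (p ^ n) : IntermediateField E Qb) Qb)
    (isLocalPair_of_intermediateField hE (F ⊔ unramExt q E (p ^ n))) n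
    (h2Class huL) (h2Class hcL) hx₁ hx₂
  have hcob : IsMulCoboundary₂ (fun x => inflFL E F (F ⊔ unramExt q E (p ^ n)) hFL c' x /
      inflFL E (unramExt q E (p ^ n)) (F ⊔ unramExt q E (p ^ n)) hF₀L
        (stdCocycle φ (unitOfE q E (p ^ n) π)) x ^ j) :=
    (h2Class_sub_zsmul hcL huL j).mp (by rw [hj]; exact sub_self _)
  obtain ⟨x, hx, hxe⟩ := Fermat.Agent.H98.Brauer.finToLvl E (F ⊔ unramExt q E (p ^ n)) _ hcob
  refine ⟨j, π, φ, hπ, hφ, x, hx, fun gh => ?_⟩
  rw [hxe gh, ← hcc']
  show inflE E (F ⊔ unramExt q E (p ^ n)) (fun x =>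
      inflFL E F (F ⊔ unramExt q E (p ^ n)) hFL c' x /
        inflFL E (unramExt q E (p ^ n)) (F ⊔ unramExt q E (p ^ n)) hF₀L
          (stdCocycle φ (unitOfE q E (p ^ n) π)) x ^ j) gh =
    inflE E F c' gh / inflE E (unramExt q E (p ^ n)) (stdCocycle φ (unitOfE q E (p ^ n) π)) gh ^ j
  rw [← Fermat.Agent.H98.Brauer.inflComp E F (F ⊔ unramExt q E (p ^ n)) hFL c' gh,
    ← Fermat.Agent.H98.Brauer.inflComp E (unramExt q E (p ^ n)) (F ⊔ unramExt q E (p ^ n))
      hF₀L (stdCocycle φ (unitOfE q E (p ^ n) π)) gh]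
  simp only [inflE, map_div, map_zpow]

end Fermat.Agent.H96.CFT

end
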