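/-
P-CFT / LOCAL row 829 (INV-EX): `InvExistsStatement` from the single open leaf of helper24's
block LOC-6, `UnramSplitStatement` (row 751), by assembling the landed chain

  UnramSplit ⟶ PGroupCyclic (helper61) ⟶ PGroupCyclicAbs (helper24 + helper98's concretize)
    ⟶ PPowTorsionCyclicAbs (helper38) ⟶ InvExists (`invExists_of`).
-/
import Fermat.Agent.H96.CFT.InvExists
import Fermat.Agent.H38.Brauer.SylowPow
import Fermat.Agent.H61.CFT.PGroupCyclic
import Fermat.Agent.H98.Brauer.Concretize
import Fermat.Agent.H81.Local.BrPair

set_option autoImplicit false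
set_option synthInstance.maxHeartbeats 400000

namespace Fermat.Agent.H96.CFT

open Fermat.Agent.H78.CFT Fermat.Agent.H24.Brauer

/-- The `p ^ n`-torsion statement from `UnramSplitStatement` (all other inputs are landed). -/
theorem pPowTorsionCyclicAbs_of_unramSplit (h : UnramSplitStatement) :
    PPowTorsionCyclicAbsStatement :=
  Fermat.Agent.H38.Brauer.pPowTorsionCyclicAbs
    (pGroupCyclicAbs_of Fermat.Agent.H98.Brauer.concretize
      (Fermat.Agent.H61.Brauer.pGroupCyclic h
        (orderBoundAbs_of Fermat.Agent.H81.Local.localPairLayer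
          Fermat.Agent.H81.Local.localDatumAbs)))
    Fermat.Agent.H81.Local.localPairTower

/-- **INV-EX** from `UnramSplitStatement`. -/
theorem invExists_of_unramSplit (h : UnramSplitStatement) : InvExistsStatement :=
  invExists_of (pPowTorsionCyclicAbs_of_unramSplit h)

end Fermat.Agent.H96.CFT
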